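/-
Cluster T / S35, WP D (helper43), part 2: transfer of characters and of forms with character
along a wreath hom `F : Γ₀(N₀) → Γ₀(N) ≀ Sym(I)` realized by a family `rep : I → SL(2,ℤ)`
(`rep i * γ = elt γ i * rep (perm γ i)`):

* `wreathChar F χ (γ) = ∏ i, χ (elt γ i)`  (the transfer of `χ`);
* `charOf n (op c) = wreathChar F (charOf n c)`;
* if `f` is a form of weight `w` and character `χ` on `Γ₀(N)`, then `∏ i, f ∣[w] rep i` is a form
  of weight `w * |I|` and character `wreathChar F χ` on `Γ₀(N₀)`.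
-/
import Mathlib
import Fermat.Agent.F3.I2.Kappa.CharOf
import Fermat.Agent.L.Degen.Wreath

set_option autoImplicit false

noncomputable section

namespace Fermat.Agent.F3Deg

open UpperHalfPlane CongruenceSubgroup Filter Topology
open scoped MatrixGroups ModularForm Manifold
open Fermat.Agent.F3EC Fermat.Agent.F3I2 Fermat.Agent.LDeg

variable {N₀ N : ℕ} {I : Type*} [Fintype I]

/-- The transfer of a character along a wreath hom. -/
def wreathChar (F : WreathHom ↥(Gamma0 N₀) ↥(Gamma0 N) I) (χ : ↥(Gamma0 N) →* ℂˣ) :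
    ↥(Gamma0 N₀) →* ℂˣ where
  toFun γ := ∏ i : I, χ (F.elt γ i)
  map_one' := by simp [F.elt_one]
  map_mul' γ δ := by
    have hperm : ∏ i : I, χ (F.elt δ (F.perm γ i)) = ∏ i : I, χ (F.elt δ i) :=
      Equiv.prod_comp (F.permEquiv γ) (fun i => χ (F.elt δ i))
    rw [← hperm, ← Finset.prod_mul_distrib]
    refine Finset.prod_congr rfl fun i _ => ?_
    rw [F.elt_mul, map_mul]

theorem wreathChar_apply (F : WreathHom ↥(Gamma0 N₀) ↥(Gamma0 N) I) (χ : ↥(Gamma0 N) →* ℂˣ)
    (γ : ↥(Gamma0 N₀)) : wreathChar F χ γ = ∏ i : I, χ (F.elt γ i) := rfl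

theorem wreathChar_one (F : WreathHom ↥(Gamma0 N₀) ↥(Gamma0 N) I) :
    wreathChar F (1 : ↥(Gamma0 N) →* ℂˣ) = 1 := by
  ext γ
  simp [wreathChar_apply]

theorem wreathChar_pow_eq_one (F : WreathHom ↥(Gamma0 N₀) ↥(Gamma0 N) I)
    {χ : ↥(Gamma0 N) →* ℂˣ} {n : ℕ} (hχ : ∀ γ, χ γ ^ n = 1) (γ : ↥(Gamma0 N₀)) :
    wreathChar F χ γ ^ n = 1 := by
  rw [wreathChar_apply, ← Finset.prod_pow]
  exact Finset.prod_eq_one fun i _ => hχ _

theorem deg_zpow_sum {G : Type*} [CommGroup G] {J : Type*} (s : Finset J) (u : G) (f : J → ℤ) :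
    u ^ (∑ i ∈ s, f i) = ∏ i ∈ s, u ^ f i := by
  classical
  induction s using Finset.induction_on with
  | empty => simp
  | insert a s ha ih => rw [Finset.sum_insert ha, Finset.prod_insert ha, zpow_add, ih]

/-- The character of the image under the operator of a wreath hom. -/
theorem charOf_eq_wreathChar (F : WreathHom ↥(Gamma0 N₀) ↥(Gamma0 N) I) (n : ℕ)
    (c : HomPar N) (c' : HomPar N₀) (h : c'.1 = F.op ℤ c.1) :
    charOf n c' = wreathChar F (charOf n c) := by
  refine MonoidHom.ext fun γ => ?_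
  rw [charOf_apply, h, WreathHom.op_apply, wreathChar_apply]
  simp only [charOf_apply]
  exact deg_zpow_sum _ _ _

/-- The product of the translates `f ∣[w] rep i` of a form with character `χ` on `Γ₀(N)` is a form
with character `wreathChar F χ` on `Γ₀(N₀)` (weight `w * |I|`). -/
theorem IsFormChar.wreathProd {w : ℤ} {χ : ↥(Gamma0 N) →* ℂˣ} {f : ℍ → ℂ}
    (hf : IsFormChar N w χ f) (F : WreathHom ↥(Gamma0 N₀) ↥(Gamma0 N) I) (rep : I → SL(2, ℤ))
    (hF : ∀ (γ : ↥(Gamma0 N₀)) (i : I), rep i * (γ : SL(2, ℤ)) =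
      ((F.elt γ i : ↥(Gamma0 N)) : SL(2, ℤ)) * rep (F.perm γ i)) :
    IsFormChar N₀ (w * (Fintype.card I : ℤ)) (wreathChar F χ) (∏ i : I, f ∣[w] rep i) := by
  have hcard : (Fintype.card I : ℤ) = ((Finset.univ : Finset I).card : ℤ) := by
    rw [Finset.card_univ]
  rw [hcard]
  refine ⟨fc_mdifferentiable_prod _ _ fun i _ => hf.mdiff.slash w _, fun γ => ?_, fun g => ?_⟩
  · rw [fc_prod_slash_SL2]
    have h1 : ∀ i, (f ∣[w] rep i) ∣[w] (γ : SL(2, ℤ)) =
        ((χ (F.elt γ i) : ℂˣ) : ℂ) • (f ∣[w] rep (F.perm γ i)) := by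
      intro i
      rw [← SlashAction.slash_mul, hF γ i, SlashAction.slash_mul, hf.slash]
      exact ModularForm.SL_smul_slash _ _ _ _
    simp_rw [h1]
    rw [Finset.prod_smul, wreathChar_apply]
    congr 1
    · push_cast
      rfl
    · exact Equiv.prod_comp (F.permEquiv γ) (fun x => f ∣[w] rep x)
  · rw [fc_prod_slash_SL2]
    refine fc_isBoundedAtImInfty_prod _ _ fun i _ => ?_
    rw [← SlashAction.slash_mul]
    exact hf.bdd (rep i * g)

/-- The product of the translates of a nonzero holomorphic function is nonzero. -/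
theorem wreathProd_ne_zero {w : ℤ} {f : ℍ → ℂ} (hf : MDiff f) (hf0 : f ≠ 0)
    (rep : I → SL(2, ℤ)) : (∏ i : I, f ∣[w] rep i) ≠ 0 :=
  fc_mdiff_prod_ne_zero _ _ (fun _ _ => hf.slash w _) (fun _ _ => fc_slash_ne_zero hf0 w _)

end Fermat.Agent.F3Deg
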