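/-
Cluster T / S35, WP D (helper43), part 3: THE ANALYTIC CORE for `α_*`.

`N = N₀ q`, `q` prime, `q ∤ N₀`, `α : F_{N₀} ⊂ F_N`.  If `x = f / g` (`f, g` modular forms of
weight `w` on `Γ₀(N)`), then
    `Norm_α x = (∏ᵢ f ∣[w] rᵢ) / (∏ᵢ g ∣[w] rᵢ)`,
the products over the right coset representatives `rᵢ = LDeg.coresRep N₀ q i` of `Γ₀(N)` in
`Γ₀(N₀)`.

Route: the Galois closure `LL M` of helper46's port `F3/DictC` (functions on `ℍ` with the action
of `SL(2,ℤ)`): `φ (Norm x) = ∏ᵢ rᵢ⁻¹ • φ' x` (helper42's `norm_hom_eq_prod_smul`), the bridge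
`IsRatio → identity of functions` (helper45's `mul_eq_mul_of_isRatio`) and its converse.
-/
import Mathlib
import Fermat.Agent.F3.Dict.RatioCusp
import Fermat.Agent.F3.I2.NormC.NormProdC
import Fermat.Agent.F3.I2.Kappa.Ratio
import Fermat.Agent.F3.I2.Deg.FormProd
import Fermat.Agent.L.Degen.CoresIndex

set_option autoImplicit false
set_option linter.style.haveILetI false
set_option linter.unusedSectionVars false

noncomputable section

namespace Fermat.Agent.F3Deg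

open UpperHalfPlane CongruenceSubgroup ModularCurve AlgebraicCurve
open Fermat.Agent.F3Dict Fermat.Agent.F3Dict.EmbFHom Fermat.Agent.F3Ratio
  Fermat.Agent.F3RatioCusp Fermat.Agent.F3I2 Fermat.Agent.S23 Fermat.Agent.LDeg
open scoped MatrixGroups ModularForm Manifold

/-- **Converse ratio bridge**: if `φ x = a / b` in `LL M` and `A · b = B · a` as functions on
`ℍ`, then `x = A / B`. -/
theorem isRatio_of_mul_eq_mul {N M : ℕ} [NeZero N] [NeZero M] (hNM : N ∣ M) (x : ↥(F3I2.FC N))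
    {w : ℤ} (A B : ModularForm (Gamma0 N) w) (hB : B ≠ 0) (a b : AL M) (hb : b ≠ 0)
    (hx : embHom N M hNM x * algebraMap (AL M) (LL M) b = algebraMap (AL M) (LL M) a)
    (hmul : mfFun A * (b : Fun) = mfFun B * (a : Fun)) : F3I2.IsRatio N x A B := by
  refine ⟨hB, ?_⟩
  have e1 : expLL M (embHom N M hNM x) = qExpand Kc M (x : LaurentSeries Kc) :=
    expLL_embHom N M hNM x
  have e2 := congrArg (expLL M) hx
  rw [map_mul, expLL_algebraMap, expLL_algebraMap, e1] at e2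
  have hA := (hasExp_mfFun M A).mul (hasExp_expAL M b)
  have hB' := (hasExp_mfFun M B).mul (hasExp_expAL M a)
  rw [hmul] at hA
  have key := hA.unique hB'
  rw [← e2] at key
  have hb0 : expAL M b ≠ 0 := by
    intro h0
    exact hb (expAL_injective M (h0.trans (map_zero _).symm))
  have key2 : qExpand Kc M (F3I2.qLaurent A) =
      qExpand Kc M ((x : LaurentSeries Kc) * F3I2.qLaurent B) := by
    rw [map_mul]
    apply mul_right_cancel₀ hb0
    rw [key]
    ring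
  exact qExpand_injective (R := Kc) M key2

/-- The translate of the cross-multiplication identity by `γ ∈ SL(2,ℤ)`. -/
theorem slFun_mul_smul_eq {N M : ℕ} {w : ℤ} (A B : ModularForm (Gamma0 N) w) (a b : AL M)
    (hmul : mfFun A * (b : Fun) = mfFun B * (a : Fun)) (γ : SL(2, ℤ)) :
    slFun A γ⁻¹ * ((γ • b : AL M) : Fun) = slFun B γ⁻¹ * ((γ • a : AL M) : Fun) := by
  ext τ
  have h1 : (mfFun A * (b : Fun)) (γ⁻¹ • τ) = (mfFun B * (a : Fun)) (γ⁻¹ • τ) := by
    rw [hmul]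
  rw [Fun.mul_apply, Fun.mul_apply, mfFun_apply, mfFun_apply] at h1
  rw [Fun.mul_apply, Fun.mul_apply, AL.coe_smul, AL.coe_smul, Fun.sl_smul_apply,
    Fun.sl_smul_apply, slFun_apply, slFun_apply]
  rw [mul_right_comm, h1]
  exact mul_right_comm _ _ _

section Main

variable (N₀ q : ℕ) [NeZero N₀] [NeZero q]

/-- The right coset representatives of `Γ₀(N₀ q)` in `Γ₀(N₀)`, as elements of `SL(2,ℤ)`. -/
def repSL (i : OnePoint (ZMod q)) : SL(2, ℤ) := ((coresRep N₀ q i : ↥(Gamma0 N₀)) : SL(2, ℤ))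

theorem repSL_mem (i : OnePoint (ZMod q)) : repSL N₀ q i ∈ Gamma0 N₀ :=
  (coresRep N₀ q i).2

variable {N₀ q}

/-- **The norm along `α` is the product of the conjugates** `rᵢ⁻¹ • x` in `LL (N₀ q)`. -/
theorem embHom_norm_alpha (hq : q.Prime) (hqN : ¬ q ∣ N₀) (x : ↥(F3I2.FC (N₀ * q))) :
    haveI : NeZero (N₀ * q) := ⟨Nat.mul_ne_zero (NeZero.ne N₀) (NeZero.ne q)⟩
    embHom N₀ (N₀ * q) (dvd_mul_right N₀ q)
        (Fermat.Agent.F3G.normAlong (heckeAlphaBar ℂ N₀ q) x)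
      = ∏ i : OnePoint (ZMod q),
          (repSL N₀ q i)⁻¹ • embHom (N₀ * q) (N₀ * q) dvd_rfl x := by
  haveI : NeZero (N₀ * q) := ⟨Nat.mul_ne_zero (NeZero.ne N₀) (NeZero.ne q)⟩
  obtain ⟨hfd, hrank⟩ := Fermat.Agent.KroneckerC.finrank_heckeAlphaBar N₀ q hq hqN
  refine Fermat.Agent.Kronecker.norm_hom_eq_prod_smul (Γ := SL(2, ℤ))
    (embHom N₀ (N₀ * q) (dvd_mul_right N₀ q)) (embHom (N₀ * q) (N₀ * q) dvd_rfl)
    (heckeAlphaBar ℂ N₀ q) (Fermat.Agent.KroneckerC.embHom_heckeAlphaBar N₀ q) hfd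
    (fun i => (repSL N₀ q i)⁻¹) (fun i y => ?_) (fun i j hij => ?_) ?_ x
  · exact (Fermat.Agent.KroneckerC.mem_Gamma0_iff_smul_embHom N₀ (N₀ * q) (dvd_mul_right N₀ q)
      _).mp (inv_mem (repSL_mem N₀ q i)) y
  · have hmem : repSL N₀ q j * (repSL N₀ q i)⁻¹ ∈ Gamma0 (N₀ * q) := by
      rw [Fermat.Agent.KroneckerC.mem_Gamma0_iff_smul_embHom (N₀ * q) (N₀ * q) dvd_rfl]
      intro y
      rw [mul_smul, hij y, smul_inv_smul]
    have h1 : coresRep N₀ q j = Fermat.Agent.L.incl N₀ q ⟨_, hmem⟩ * coresRep N₀ q i := by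
      apply Subtype.ext
      show repSL N₀ q j = repSL N₀ q j * (repSL N₀ q i)⁻¹ * repSL N₀ q i
      rw [inv_mul_cancel_right]
    exact (distinct_incl hq hqN j i _ h1).symm
  · rw [hrank, card_onePoint_zmod]

/-- The realization of `coresW` in `SL(2,ℤ)`. -/
theorem repSL_mul (hq : q.Prime) (hqN : ¬ q ∣ N₀) (γ : ↥(Gamma0 N₀)) (i : OnePoint (ZMod q)) :
    repSL N₀ q i * (γ : SL(2, ℤ)) =
      (((coresW hq hqN).elt γ i : ↥(Gamma0 (N₀ * q))) : SL(2, ℤ)) *
        repSL N₀ q ((coresW hq hqN).perm γ i) := by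
  have h := coresW_realizes hq hqN γ i
  exact congrArg (fun z : ↥(Gamma0 N₀) => (z : SL(2, ℤ))) h

theorem fun_prod_apply {ι : Type*} (s : Finset ι) (F : ι → Fun) (τ : ℍ) :
    (∏ i ∈ s, F i) τ = ∏ i ∈ s, F i τ := by
  classical
  induction s using Finset.induction_on with
  | empty => simp
  | insert a s ha ih => rw [Finset.prod_insert ha, Finset.prod_insert ha, Fun.mul_apply, ih]

theorem coe_prod_AL {M : ℕ} {ι : Type*} (s : Finset ι) (F : ι → AL M) :
    ((∏ i ∈ s, F i : AL M) : Fun) = ∏ i ∈ s, (F i : Fun) :=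
  map_prod (AL M).val F s

/-- **(Dα-C), the analytic core**: if `x = f / g` on `Γ₀(N₀ q)` then
`Norm_α x = ∏ᵢ (f ∣ rᵢ) / ∏ᵢ (g ∣ rᵢ)` on `Γ₀(N₀)`. -/
theorem isRatioF_norm_alpha (hq : q.Prime) (hqN : ¬ q ∣ N₀) {w : ℤ}
    {x : ↥(F3I2.FC (N₀ * q))} {f g : ℍ → ℂ}
    (hf : IsMF (G0 (N₀ * q)) w f) (hg : IsMF (G0 (N₀ * q)) w g)
    (h : IsRatioF (N₀ * q) x f g) :
    IsRatioF N₀ (Fermat.Agent.F3G.normAlong (heckeAlphaBar ℂ N₀ q) x)
      (∏ i : OnePoint (ZMod q), f ∣[w] repSL N₀ q i)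
      (∏ i : OnePoint (ZMod q), g ∣[w] repSL N₀ q i) := by
  haveI : NeZero (N₀ * q) := ⟨Nat.mul_ne_zero (NeZero.ne N₀) (NeZero.ne q)⟩
  obtain ⟨A, rfl⟩ := hf
  obtain ⟨B, rfl⟩ := hg
  obtain ⟨hg0, -, hqe⟩ := h
  have hB0 : B ≠ 0 := by
    rintro rfl
    exact hg0 rfl
  have hAB : F3I2.IsRatio (N₀ * q) x A B := ⟨hB0, hqe⟩
  -- the forms at level `N₀`
  have hFA := IsFormChar.wreathProd (isFormChar_of_modularForm A) (coresW hq hqN)
    (repSL N₀ q) (repSL_mul hq hqN)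
  have hFB := IsFormChar.wreathProd (isFormChar_of_modularForm B) (coresW hq hqN)
    (repSL N₀ q) (repSL_mul hq hqN)
  rw [wreathChar_one] at hFA hFB
  obtain ⟨A', hA'⟩ := hFA.exists_modularForm
  obtain ⟨B', hB'⟩ := hFB.exists_modularForm
  have hB'0 : B' ≠ 0 := by
    rintro rfl
    exact wreathProd_ne_zero (w := w) (ModularFormClass.holo B) hg0 (repSL N₀ q) hB'.symm
  -- the function field side
  obtain ⟨a, b, hb, hab⟩ := IsFractionRing.div_surjective (A := AL (N₀ * q))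
    (embHom (N₀ * q) (N₀ * q) dvd_rfl x)
  have hb0 : b ≠ 0 := nonZeroDivisors.ne_zero hb
  have hbL : algebraMap (AL (N₀ * q)) (LL (N₀ * q)) b ≠ 0 := by
    intro h0
    exact hb0 ((IsFractionRing.injective (AL (N₀ * q)) (LL (N₀ * q))) (by rw [h0, map_zero]))
  have hx : embHom (N₀ * q) (N₀ * q) dvd_rfl x * algebraMap (AL (N₀ * q)) (LL (N₀ * q)) b = algebraMap (AL (N₀ * q)) (LL (N₀ * q)) a := by
    rw [← hab, div_mul_cancel₀ _ hbL]
  have hmul := mul_eq_mul_of_isRatio dvd_rfl x A B hAB a b hx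
  set a' : AL (N₀ * q) := ∏ i : OnePoint (ZMod q), (repSL N₀ q i)⁻¹ • a with ha'
  set b' : AL (N₀ * q) := ∏ i : OnePoint (ZMod q), (repSL N₀ q i)⁻¹ • b with hb'
  have hb'0 : b' ≠ 0 := by
    rw [hb', Finset.prod_ne_zero_iff]
    intro i _ h0
    apply hb0
    have := congrArg (fun f => (repSL N₀ q i) • f) h0
    simpa using this
  have hx' : embHom N₀ (N₀ * q) (dvd_mul_right N₀ q)
        (Fermat.Agent.F3G.normAlong (heckeAlphaBar ℂ N₀ q) x) * algebraMap (AL (N₀ * q)) (LL (N₀ * q)) b'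
      = algebraMap (AL (N₀ * q)) (LL (N₀ * q)) a' := by
    rw [embHom_norm_alpha hq hqN x, ha', hb', map_prod, map_prod, ← Finset.prod_mul_distrib]
    refine Finset.prod_congr rfl fun i _ => ?_
    rw [← LL.smul_algebraMap, ← LL.smul_algebraMap, ← smul_mul', hx]
  have hmul' : mfFun A' * (b' : Fun) = mfFun B' * (a' : Fun) := by
    have e1 : mfFun A' = ∏ i : OnePoint (ZMod q), slFun A (repSL N₀ q i) := by
      ext τ
      rw [mfFun_apply, hA', Finset.prod_apply, fun_prod_apply]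
      rfl
    have e2 : mfFun B' = ∏ i : OnePoint (ZMod q), slFun B (repSL N₀ q i) := by
      ext τ
      rw [mfFun_apply, hB', Finset.prod_apply, fun_prod_apply]
      rfl
    rw [e1, e2, ha', hb', coe_prod_AL, coe_prod_AL, ← Finset.prod_mul_distrib,
      ← Finset.prod_mul_distrib]
    refine Finset.prod_congr rfl fun i _ => ?_
    have h1 := slFun_mul_smul_eq A B a b hmul (repSL N₀ q i)⁻¹
    rwa [inv_inv] at h1
  have hfin := (isRatio_of_mul_eq_mul (dvd_mul_right N₀ q) _ A' B' hB'0 a' b' hb'0 hx'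
    hmul').isRatioF
  rwa [hA', hB'] at hfin

end Main

end Fermat.Agent.F3Deg
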