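/-
Cluster T / S35, WP D (helper43), part 4: `IsTheta` is compatible with `α_*`.

`N = N₀ q`.  `pushAlphaAlong L N₀ q : Pic0 (F_N) → Pic0 (F_{N₀})` is the pushforward of divisor
classes along `α = heckeAlphaBar L N₀ q` (the norm on functions), and
    `IsTheta N n χ c  →  IsTheta N₀ n (transfer χ) (α_* c)`,
`transfer χ = wreathChar (LDeg.coresW) χ`.
-/
import Mathlib
import Fermat.Agent.F3.I2.Deg.Push
import Fermat.Agent.F3.I2.Deg.NormFun
import Fermat.Agent.F3.I2.Kappa.Theta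
import Fermat.Agent.Lib.HeckeInputs.Complex

set_option autoImplicit false
set_option linter.style.haveILetI false
set_option linter.unusedSectionVars false

noncomputable section

namespace Fermat.Agent.F3Deg

open UpperHalfPlane CongruenceSubgroup ModularCurve AlgebraicCurve
open Fermat.Agent.F3I2 Fermat.Agent.S23 Fermat.Agent.LDeg
open scoped MatrixGroups ModularForm Manifold

/-- `α_*` on divisor classes, over any constant field `L` with the Hecke inputs. -/
def pushAlphaAlong (L : Type*) [Field L] [Algebra ℚ L] (N₀ q : ℕ) [NeZero N₀] [NeZero q]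
    (h : HeckeInputsAlong L N₀ q) :
    Pic0 L (laurentBaseChange L (modularFunctionFieldFull (N₀ * q))) →+
      Pic0 L (laurentBaseChange L (modularFunctionFieldFull N₀)) :=
  pushPic (heckeAlphaBar L N₀ q) h.fst h.snd.snd.snd.fst h.snd.snd.snd.snd.2

theorem pushAlphaAlong_mk (L : Type*) [Field L] [Algebra ℚ L] (N₀ q : ℕ) [NeZero N₀] [NeZero q]
    (h : HeckeInputsAlong L N₀ q)
    (D : Divisor.degZero (K := L)
      (F := laurentBaseChange L (modularFunctionFieldFull (N₀ * q)))) :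
    pushAlphaAlong L N₀ q h (Pic0.mk D) = Pic0.mk (pushDegZero (heckeAlphaBar L N₀ q) h.fst D) :=
  rfl

/-- Slash of a power, for `SL(2,ℤ)`. -/
theorem slash_pow_SL2 (f : ℍ → ℂ) (w : ℤ) (n : ℕ) (γ : SL(2, ℤ)) :
    (f ^ n) ∣[(n : ℤ) * w] γ = (f ∣[w] γ) ^ n := by
  induction n with
  | zero =>
    simp only [pow_zero, Nat.cast_zero, zero_mul]
    exact ModularForm.is_invariant_one γ
  | succ k ih =>
    have e : ((k + 1 : ℕ) : ℤ) * w = (k : ℤ) * w + w := by push_cast; ring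
    rw [e, pow_succ, pow_succ, ModularForm.mul_slash_SL2, ih]

variable {N₀ q : ℕ} [NeZero N₀] [NeZero q]

/-- **`IsTheta` and `α_*`.** -/
theorem IsTheta.pushAlpha (hq : q.Prime) (hqN : ¬ q ∣ N₀) {n : ℕ}
    {χ : ↥(Gamma0 (N₀ * q)) →* ℂˣ} {c : Pic0 ℂ (FC (N₀ * q))}
    (h : IsTheta (N₀ * q) n χ c) :
    IsTheta N₀ n (wreathChar (coresW hq hqN) χ)
      (pushAlphaAlong ℂ N₀ q (Fermat.Agent.HeckeInputs.hi_heckeInputsAlong_complex N₀ q) c) := by
  haveI : NeZero (N₀ * q) := ⟨Nat.mul_ne_zero (NeZero.ne N₀) (NeZero.ne q)⟩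
  obtain ⟨hχ, w, f, B, x, D, hf, hB, hf0, hB0, hr, hD, rfl⟩ := h
  set hH := Fermat.Agent.HeckeInputs.hi_heckeInputsAlong_complex N₀ q with hHdef
  have hf' := IsFormChar.wreathProd hf (coresW hq hqN) (repSL N₀ q) (repSL_mul hq hqN)
  have hB' := IsFormChar.wreathProd hB (coresW hq hqN) (repSL N₀ q) (repSL_mul hq hqN)
  rw [wreathChar_one] at hB'
  refine ⟨wreathChar_pow_eq_one _ hχ, _, _, _,
    Fermat.Agent.F3G.normAlong (heckeAlphaBar ℂ N₀ q) x,
    pushDegZero (heckeAlphaBar ℂ N₀ q) hH.fst D, hf', hB',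
    wreathProd_ne_zero hf.mdiff hf0 _, wreathProd_ne_zero hB.mdiff hB0 _, ?_, ?_, rfl⟩
  · have hfm : IsMF (G0 (N₀ * q)) ((n : ℤ) * w) (f ^ n) := hf.pow_isMF hχ
    have hBm : IsMF (G0 (N₀ * q)) ((n : ℤ) * w) (B ^ n) :=
      (hB.isMF.pow n).cast (mul_comm _ _)
    have key := isRatioF_norm_alpha hq hqN hfm hBm hr
    simp only [slash_pow_SL2, Finset.prod_pow] at key
    exact key
  · exact IsRootDiv.push (heckeAlphaBar ℂ N₀ q) hH.fst hH.snd.snd.snd.fst hH.snd.snd.snd.snd.2 hD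

end Fermat.Agent.F3Deg
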