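/-
Cluster T / S35, WP D (helper43), part 5: `κ` and `α_*` over `ℚ̄`.

`pushAlpha N₀ q : J₀(N₀ q)(ℚ̄) → J₀(N₀)(ℚ̄)` (the norm on functions) commutes with the base
change to `ℂ`, and the graph `IsKappa` of `κ` is compatible with it:
    `IsKappa n c y  →  IsKappa n (coresPar c) (α_* y)`,
`coresPar = LDeg.coresPar N₀ q : HomPar (N₀ q) → HomPar N₀` the transfer (corestriction).
-/
import Mathlib
import Fermat.Agent.F3.I2.Deg.ThetaPush
import Fermat.Agent.F3.I2.Kappa.KappaC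
import Fermat.Agent.F3.I2.Descent.Uncond
import Fermat.Agent.L.Degen.CoresPar
import Fermat.Agent.L.Degen.CoresIndex

set_option autoImplicit false
set_option linter.style.haveILetI false
set_option linter.unusedSectionVars false

noncomputable section

namespace Fermat.Agent.F3Deg

open UpperHalfPlane CongruenceSubgroup ModularCurve AlgebraicCurve
open Fermat.Agent.F3I2 Fermat.Agent.S23 Fermat.Agent.LDeg Fermat.Agent.F3EC Fermat.Agent.RR
open scoped MatrixGroups ModularForm Manifold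

variable (N₀ q : ℕ) [NeZero N₀] [NeZero q]

/-- **`α_*`** `: J₀(N₀ q)(ℚ̄) → J₀(N₀)(ℚ̄)`, the pushforward of divisor classes along
`α = heckeAlphaBar ℚ̄ N₀ q : F_{N₀} ⊂ F_{N₀ q}` (the norm on functions). -/
def pushAlpha : JZero (N₀ * q) →+ JZero N₀ :=
  pushAlphaAlong (AlgebraicClosure ℚ) N₀ q
    (Fermat.Agent.HeckeInputs.hi_heckeInputsAlong_Qbar N₀ q)

theorem pushAlpha_mk
    (D : Divisor.degZero (K := AlgebraicClosure ℚ) (F := modularFunctionFieldBar (N₀ * q))) :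
    pushAlpha N₀ q (Pic0.mk D) = Pic0.mk (pushDegZero (heckeAlphaBar (AlgebraicClosure ℚ) N₀ q)
      (Fermat.Agent.HeckeInputs.hi_heckeInputsAlong_Qbar N₀ q).fst D) :=
  rfl

/-- **`bc` commutes with `α_*`.** -/
theorem descBc_pushAlpha (y : JZero (N₀ * q)) :
    descBc N₀ (pushAlpha N₀ q y) =
      pushAlphaAlong ℂ N₀ q (Fermat.Agent.HeckeInputs.hi_heckeInputsAlong_complex N₀ q)
        (descBc (N₀ * q) y) := by
  letI := descAlgebraQbarC
  obtain ⟨D, rfl⟩ := Pic0.mk_surjective y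
  rw [pushAlpha_mk, descBc_mk, descBc_mk, pushAlphaAlong_mk]
  congr 1
  apply Subtype.ext
  show descBcDiv N₀ (Divisor.pushforwardAlong (heckeAlphaBar (AlgebraicClosure ℚ) N₀ q)
      (Fermat.Agent.HeckeInputs.hi_heckeInputsAlong_Qbar N₀ q).fst (D : Divisor _ _)) =
    Divisor.pushforwardAlong (heckeAlphaBar ℂ N₀ q)
      (Fermat.Agent.HeckeInputs.hi_heckeInputsAlong_complex N₀ q).fst
      (descBcDiv (N₀ * q) (D : Divisor _ _))
  exact DescPlaces.bcDiv_pushforwardAlong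
    (descPlacesQC (Fermat.Agent.RRMod.isRRField_bar N₀))
    (descPlacesQC (Fermat.Agent.RRMod.isRRField_bar (N₀ * q)))
    (heckeAlphaBar (AlgebraicClosure ℚ) N₀ q) (heckeAlphaBar ℂ N₀ q)
    (Fermat.Agent.HeckeInputs.hi_heckeInputsAlong_Qbar N₀ q).fst
    (Fermat.Agent.HeckeInputs.hi_heckeInputsAlong_complex N₀ q).fst
    (DescPlaces.descTheta_heckeAlphaBar N₀ q)
    (Fermat.Agent.RRMod.isRRField_bar N₀).deg_one
    (Fermat.Agent.RRMod.isRRField_bar (N₀ * q)).deg_one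
    (descIsRRField_FC N₀).deg_one (descIsRRField_FC (N₀ * q)).deg_one D

variable {N₀ q}

/-- The character of the transfer. -/
theorem charOf_coresPar (hq : q.Prime) (hqN : ¬ q ∣ N₀) (n : ℕ) (c : HomPar (N₀ * q)) :
    charOf n (coresPar N₀ q c) = wreathChar (coresW hq hqN) (charOf n c) :=
  charOf_eq_wreathChar (coresW hq hqN) n c (coresPar N₀ q c)
    ((coresPar_coe N₀ q c).trans (coresAll_eq_op hq hqN ℤ c.1))

/-- **(Dα)**, graph form: `IsKappa n c y → IsKappa n (tr c) (α_* y)`. -/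
theorem IsKappa.pushAlpha (hq : q.Prime) (hqN : ¬ q ∣ N₀) {n : ℕ} {c : HomPar (N₀ * q)}
    {y : JZero (N₀ * q)} (h : IsKappa (descBc (N₀ * q)) n c y) :
    IsKappa (descBc N₀) n (coresPar N₀ q c) (pushAlpha N₀ q y) := by
  have h1 := IsTheta.pushAlpha hq hqN h
  rw [IsKappa, descBc_pushAlpha, charOf_coresPar hq hqN]
  exact h1

end Fermat.Agent.F3Deg
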