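/-
S35 WP D, part Dw (helper7): the Atkin–Lehner matrix `W = (Q a, b; Q R, Q)` as an element of
`GL₂(ℝ)`, the conjugation `γ ↦ W γ W⁻¹` of `Γ₀(N)` (`N = Q R`), and forms with character under
the slash operator by `W`:
    `IsFormChar N k χ f → IsFormChar N k (χ ∘ conj_W) (f ∣[k] W)`.
-/
import Mathlib
import Fermat.Agent.Lib.BadRed.ALFun
import Fermat.Agent.L.Degen.IntMat
import Fermat.Agent.F3.I2.FormChar

set_option autoImplicit false
set_option linter.unusedVariables false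
set_option linter.style.haveILetI false

noncomputable section

namespace Fermat.Agent.F3DegW

open UpperHalfPlane CongruenceSubgroup Matrix.SpecialLinearGroup
open Fermat.Agent.AtkinLehner (ALData)
open Fermat.Agent.LDeg (intGL coe_intGL intGL_mul_eq_mul_iff mapGL_eq_intGL det_SL_ne_zero)
open Fermat.Agent.F3I2
open scoped MatrixGroups ModularForm Manifold

/-! ### The integer matrix `W` -/

/-- The Atkin–Lehner matrix `W = (Q a, b; Q R, Q)`. -/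
def wInt (D : ALData) : Matrix (Fin 2) (Fin 2) ℤ :=
  !![(D.Q : ℤ) * D.a, D.b; (D.Q : ℤ) * D.R, (D.Q : ℤ)]

theorem det_wInt (D : ALData) : (wInt D).det = (D.Q : ℤ) := by
  rw [wInt, Matrix.det_fin_two_of]
  linear_combination (D.Q : ℤ) * D.hdet

theorem det_wInt_ne_zero (D : ALData) : (wInt D).det ≠ 0 := by
  rw [det_wInt]
  exact_mod_cast D.hQ.ne'

/-- `W` in `GL₂(ℝ)`. -/
def wGL (D : ALData) : GL (Fin 2) ℝ := intGL (wInt D) (det_wInt_ne_zero D)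

theorem val_wGL (D : ALData) :
    ((wGL D : GL (Fin 2) ℝ) : Matrix (Fin 2) (Fin 2) ℝ) =
      !![(D.Q : ℝ) * D.a, (D.b : ℝ); (D.Q : ℝ) * D.R, (D.Q : ℝ)] := by
  rw [wGL, coe_intGL, wInt]
  ext i j
  fin_cases i <;> fin_cases j <;> simp

theorem det_wGL (D : ALData) : ((wGL D).det : ℝ) = (D.Q : ℝ) := by
  rw [Matrix.GeneralLinearGroup.val_det_apply, wGL, coe_intGL, ← RingHom.map_det, det_wInt]
  simp

theorem det_wGL_pos (D : ALData) : 0 < ((wGL D).det : ℝ) := by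
  rw [det_wGL]
  exact_mod_cast D.hQ

theorem σ_wGL (D : ALData) : σ (wGL D) = .refl ℝ ℂ := by
  rw [σ, if_pos (det_wGL_pos D)]

theorem denom_wGL (D : ALData) (τ : ℍ) :
    denom (wGL D) τ = ((D.Q : ℂ) * (D.R : ℂ)) * (τ : ℂ) + (D.Q : ℂ) := by
  simp [denom, val_wGL]

theorem num_wGL (D : ALData) (τ : ℍ) :
    num (wGL D) τ = (D.Q : ℂ) * (D.a : ℂ) * (τ : ℂ) + (D.b : ℂ) := by
  simp [num, val_wGL]

/-- `W` acts on `ℍ` as helper84's Möbius transformation `D.W`. -/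
theorem wGL_smul (D : ALData) (τ : ℍ) : wGL D • τ = D.W τ := by
  apply UpperHalfPlane.ext
  rw [UpperHalfPlane.coe_smul_of_det_pos (det_wGL_pos D), num_wGL, denom_wGL, ALData.coe_W]

/-- The automorphy factor of `W` in weight `k`. -/
def autW (D : ALData) (k : ℤ) (τ : ℍ) : ℂ :=
  (D.Q : ℂ) ^ (k - 1) * (((D.Q : ℂ) * (D.R : ℂ)) * (τ : ℂ) + (D.Q : ℂ)) ^ (-k)

theorem autW_ne_zero (D : ALData) (k : ℤ) (τ : ℍ) : autW D k τ ≠ 0 := by
  have hQ : (D.Q : ℂ) ≠ 0 := by exact_mod_cast D.hQ.ne'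
  exact mul_ne_zero (zpow_ne_zero _ hQ) (zpow_ne_zero _ (D.denom_ne_zero τ))

/-- **The slash by `W` in terms of `D.W`.** -/
theorem slash_wGL_apply (D : ALData) (k : ℤ) (f : ℍ → ℂ) (τ : ℍ) :
    (f ∣[k] wGL D) τ = autW D k τ * f (D.W τ) := by
  rw [ModularForm.slash_apply, σ_wGL, wGL_smul, denom_wGL, det_wGL]
  simp only [ContinuousAlgEquiv.refl_apply]
  have hQ : |(D.Q : ℝ)| = (D.Q : ℝ) := abs_of_nonneg (by positivity)
  rw [hQ, autW]
  push_cast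
  ring

theorem smul_slash_wGL (D : ALData) (k : ℤ) (c : ℂ) (f : ℍ → ℂ) :
    (c • f) ∣[k] wGL D = c • (f ∣[k] wGL D) := by
  rw [ModularForm.smul_slash, σ_wGL]
  rfl

theorem slash_wGL_ne_zero (D : ALData) (k : ℤ) {f : ℍ → ℂ} (hf : f ≠ 0) :
    f ∣[k] wGL D ≠ 0 := by
  intro h
  apply hf
  have h1 : (f ∣[k] wGL D) ∣[k] (wGL D)⁻¹ = 0 := by
    rw [h, SlashAction.zero_slash]
  rwa [← SlashAction.slash_mul, mul_inv_cancel, SlashAction.slash_one] at h1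

/-- The slash of a power. -/
theorem slash_wGL_pow (D : ALData) (k : ℤ) (f : ℍ → ℂ) (n : ℕ) (τ : ℍ) :
    ((f ∣[k] wGL D) ^ n) τ = (autW D k τ) ^ n * (f ^ n) (D.W τ) := by
  rw [Pi.pow_apply, slash_wGL_apply, mul_pow, Pi.pow_apply]

/-! ### Cancellation -/

theorem mul_right_cancel_of_det {A B W : Matrix (Fin 2) (Fin 2) ℤ} (hW : W.det ≠ 0)
    (h : A * W = B * W) : A = B := by
  have h1 : A * W * W.adjugate = B * W * W.adjugate := by rw [h]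
  rw [Matrix.mul_assoc, Matrix.mul_assoc, Matrix.mul_adjugate, Matrix.mul_smul, Matrix.mul_smul,
    Matrix.mul_one, Matrix.mul_one] at h1
  ext i j
  have h2 := congrFun (congrFun h1 i) j
  simp only [Matrix.smul_apply, smul_eq_mul] at h2
  exact mul_left_cancel₀ hW h2

theorem det_eq_one_of_mul_eq' {w g M : Matrix (Fin 2) (Fin 2) ℤ} (hw : w.det ≠ 0)
    (hg : g.det = 1) (h : w * g = M * w) : M.det = 1 := by
  have h1 := congrArg Matrix.det h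
  rw [Matrix.det_mul, Matrix.det_mul, hg, mul_one] at h1
  have h2 : M.det * w.det = 1 * w.det := by rw [one_mul, ← h1]
  exact mul_right_cancel₀ hw h2

/-! ### The conjugation `γ ↦ W γ W⁻¹` on `Γ₀(Q R)` -/

/-- The matrix `W γ W⁻¹`, for `γ ∈ Γ₀(Q R)`. -/
def conjWMat (D : ALData) (γ : SL(2, ℤ)) : Matrix (Fin 2) (Fin 2) ℤ :=
  !![D.Q * D.a * γ 0 0 + D.b * D.R * D.Q * (γ 1 0 / ((D.Q : ℤ) * D.R))
        - D.R * D.Q * D.a * γ 0 1 - D.R * D.b * γ 1 1,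
     -(D.a * γ 0 0 * D.b) - D.b ^ 2 * D.R * (γ 1 0 / ((D.Q : ℤ) * D.R))
        + D.Q * D.a ^ 2 * γ 0 1 + D.a * D.b * γ 1 1;
     D.R * D.Q * (γ 0 0 + D.Q * (γ 1 0 / ((D.Q : ℤ) * D.R)) - D.R * γ 0 1 - γ 1 1),
     -(D.R * γ 0 0 * D.b) - D.R * D.Q * (γ 1 0 / ((D.Q : ℤ) * D.R)) * D.b
        + D.R * D.Q * γ 0 1 * D.a + D.Q * γ 1 1 * D.a]

theorem QR_ne_zero (D : ALData) : ((D.Q : ℤ) * D.R) ≠ 0 := by
  have h1 : (D.Q : ℤ) ≠ 0 := by exact_mod_cast D.hQ.ne'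
  have h2 : (D.R : ℤ) ≠ 0 := by exact_mod_cast D.hR.ne'
  exact mul_ne_zero h1 h2

theorem wInt_mul_eq (D : ALData) (γ : SL(2, ℤ)) (hγ : ((D.Q : ℤ) * D.R) ∣ γ 1 0) :
    wInt D * (γ : Matrix (Fin 2) (Fin 2) ℤ) = conjWMat D γ * wInt D := by
  obtain ⟨c₀, hc₀⟩ := hγ
  have hdiv : γ 1 0 / ((D.Q : ℤ) * D.R) = c₀ := by
    rw [hc₀, Int.mul_ediv_cancel_left _ (QR_ne_zero D)]
  have hbez := D.hdet
  have hM : conjWMat D γ =
      !![D.Q * D.a * γ 0 0 + D.b * D.R * D.Q * c₀ - D.R * D.Q * D.a * γ 0 1 - D.R * D.b * γ 1 1,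
         -(D.a * γ 0 0 * D.b) - D.b ^ 2 * D.R * c₀ + D.Q * D.a ^ 2 * γ 0 1 + D.a * D.b * γ 1 1;
         D.R * D.Q * (γ 0 0 + D.Q * c₀ - D.R * γ 0 1 - γ 1 1),
         -(D.R * γ 0 0 * D.b) - D.R * D.Q * c₀ * D.b + D.R * D.Q * γ 0 1 * D.a
            + D.Q * γ 1 1 * D.a] := by
    rw [conjWMat, hdiv]
  rw [hM]
  ext i j
  fin_cases i <;> fin_cases j
  · simp only [wInt, Matrix.mul_apply, Fin.sum_univ_two, Fin.zero_eta, Fin.isValue,
      Matrix.of_apply, Matrix.cons_val', Matrix.cons_val_zero, Matrix.cons_val_one, hc₀]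
    linear_combination (-(D.Q * D.a * γ 0 0 + D.b * (D.Q * D.R * c₀))) * hbez
  · simp only [wInt, Matrix.mul_apply, Fin.sum_univ_two, Fin.zero_eta, Fin.mk_one,
      Fin.isValue, Matrix.of_apply, Matrix.cons_val', Matrix.cons_val_zero, Matrix.cons_val_one,
      hc₀]
    linear_combination (-(D.Q * D.a * γ 0 1 + D.b * γ 1 1)) * hbez
  · simp only [wInt, Matrix.mul_apply, Fin.sum_univ_two, Fin.zero_eta, Fin.mk_one,
      Fin.isValue, Matrix.of_apply, Matrix.cons_val', Matrix.cons_val_zero, Matrix.cons_val_one,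
      hc₀]
    linear_combination (-(D.R * D.Q * γ 0 0 + D.Q * (D.Q * D.R * c₀))) * hbez
  · simp only [wInt, Matrix.mul_apply, Fin.sum_univ_two, Fin.mk_one, Fin.isValue,
      Matrix.of_apply, Matrix.cons_val', Matrix.cons_val_zero, Matrix.cons_val_one, hc₀]
    linear_combination (-(D.R * D.Q * γ 0 1 + D.Q * γ 1 1)) * hbez

theorem det_conjWMat (D : ALData) (γ : SL(2, ℤ)) (hγ : ((D.Q : ℤ) * D.R) ∣ γ 1 0) :
    (conjWMat D γ).det = 1 :=
  det_eq_one_of_mul_eq' (det_wInt_ne_zero D) γ.det_coe (wInt_mul_eq D γ hγ)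

theorem trace_conjWMat (D : ALData) (γ : SL(2, ℤ)) :
    (conjWMat D γ).trace = (γ : Matrix (Fin 2) (Fin 2) ℤ).trace := by
  rw [Matrix.trace_fin_two, Matrix.trace_fin_two]
  simp only [conjWMat, Matrix.of_apply, Matrix.cons_val', Matrix.cons_val_zero,
    Matrix.cons_val_one]
  linear_combination (γ 0 0 + γ 1 1) * D.hdet

variable {N : ℕ}

theorem QR_dvd_of_mem (D : ALData) (hN : N = D.Q * D.R) {γ : SL(2, ℤ)} (hγ : γ ∈ Gamma0 N) :
    ((D.Q : ℤ) * D.R) ∣ γ 1 0 := by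
  have h := Fermat.Agent.LDeg.mem_Gamma0_iff_dvd.mp hγ
  rw [hN] at h
  push_cast at h
  exact h

theorem conjWMat_mem (D : ALData) (hN : N = D.Q * D.R) (γ : SL(2, ℤ)) :
    (N : ℤ) ∣ conjWMat D γ 1 0 := by
  rw [hN]
  simp only [conjWMat, Matrix.of_apply, Matrix.cons_val', Matrix.cons_val_zero,
    Matrix.cons_val_one]
  push_cast
  exact ⟨γ 0 0 + D.Q * (γ 1 0 / ((D.Q : ℤ) * D.R)) - D.R * γ 0 1 - γ 1 1, by ring⟩

/-- `γ ↦ W γ W⁻¹` as an element of `Γ₀(N)`. -/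
def conjWElt (D : ALData) (hN : N = D.Q * D.R) (γ : ↥(Gamma0 N)) : ↥(Gamma0 N) :=
  ⟨⟨conjWMat D (γ : SL(2, ℤ)), det_conjWMat D _ (QR_dvd_of_mem D hN γ.2)⟩,
    Fermat.Agent.LDeg.mem_Gamma0_iff_dvd.mpr (conjWMat_mem D hN _)⟩

theorem coe_conjWElt (D : ALData) (hN : N = D.Q * D.R) (γ : ↥(Gamma0 N)) :
    (((conjWElt D hN γ : ↥(Gamma0 N)) : SL(2, ℤ)) : Matrix (Fin 2) (Fin 2) ℤ) =
      conjWMat D (γ : SL(2, ℤ)) := rfl

theorem conjWElt_spec (D : ALData) (hN : N = D.Q * D.R) (γ : ↥(Gamma0 N)) :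
    wInt D * ((γ : SL(2, ℤ)) : Matrix (Fin 2) (Fin 2) ℤ) =
      (((conjWElt D hN γ : ↥(Gamma0 N)) : SL(2, ℤ)) : Matrix (Fin 2) (Fin 2) ℤ) * wInt D :=
  wInt_mul_eq D _ (QR_dvd_of_mem D hN γ.2)

theorem conjWElt_unique (D : ALData) (hN : N = D.Q * D.R) (γ γ' : ↥(Gamma0 N))
    (h : wInt D * ((γ : SL(2, ℤ)) : Matrix (Fin 2) (Fin 2) ℤ) =
      ((γ' : SL(2, ℤ)) : Matrix (Fin 2) (Fin 2) ℤ) * wInt D) : conjWElt D hN γ = γ' := by
  apply Subtype.ext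
  apply Subtype.ext
  apply mul_right_cancel_of_det (det_wInt_ne_zero D)
  rw [← h]
  exact (conjWElt_spec D hN γ).symm

/-- **The conjugation `γ ↦ W γ W⁻¹`** of `Γ₀(N)`, `N = Q R`. -/
def conjW (D : ALData) (hN : N = D.Q * D.R) : ↥(Gamma0 N) →* ↥(Gamma0 N) where
  toFun := conjWElt D hN
  map_one' := by
    apply conjWElt_unique
    simp
  map_mul' γ γ' := by
    apply conjWElt_unique
    rw [Subgroup.coe_mul, Matrix.SpecialLinearGroup.coe_mul, ← Matrix.mul_assoc,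
      conjWElt_spec D hN γ, Matrix.mul_assoc, conjWElt_spec D hN γ', ← Matrix.mul_assoc,
      Subgroup.coe_mul, Matrix.SpecialLinearGroup.coe_mul]

theorem conjW_spec (D : ALData) (hN : N = D.Q * D.R) (γ : ↥(Gamma0 N)) :
    wInt D * ((γ : SL(2, ℤ)) : Matrix (Fin 2) (Fin 2) ℤ) =
      (((conjW D hN γ : ↥(Gamma0 N)) : SL(2, ℤ)) : Matrix (Fin 2) (Fin 2) ℤ) * wInt D :=
  conjWElt_spec D hN γ

theorem conjW_unique (D : ALData) (hN : N = D.Q * D.R) (γ γ' : ↥(Gamma0 N))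
    (h : wInt D * ((γ : SL(2, ℤ)) : Matrix (Fin 2) (Fin 2) ℤ) =
      ((γ' : SL(2, ℤ)) : Matrix (Fin 2) (Fin 2) ℤ) * wInt D) : conjW D hN γ = γ' :=
  conjWElt_unique D hN γ γ' h

theorem coe_conjW (D : ALData) (hN : N = D.Q * D.R) (γ : ↥(Gamma0 N)) :
    (((conjW D hN γ : ↥(Gamma0 N)) : SL(2, ℤ)) : Matrix (Fin 2) (Fin 2) ℤ) =
      conjWMat D (γ : SL(2, ℤ)) := rfl

theorem trace_conjW (D : ALData) (hN : N = D.Q * D.R) (γ : ↥(Gamma0 N)) :
    (((conjW D hN γ : ↥(Gamma0 N)) : SL(2, ℤ)) : Matrix (Fin 2) (Fin 2) ℤ).trace =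
      ((γ : SL(2, ℤ)) : Matrix (Fin 2) (Fin 2) ℤ).trace := by
  rw [coe_conjW, trace_conjWMat]

/-- `W γ = (W γ W⁻¹) W` in `GL₂(ℝ)`. -/
theorem wGL_mul_mapGL (D : ALData) (hN : N = D.Q * D.R) (γ : ↥(Gamma0 N)) :
    wGL D * mapGL ℝ (γ : SL(2, ℤ)) =
      mapGL ℝ ((conjW D hN γ : ↥(Gamma0 N)) : SL(2, ℤ)) * wGL D := by
  rw [mapGL_eq_intGL, mapGL_eq_intGL, wGL]
  exact (intGL_mul_eq_mul_iff _ _ _ _).mpr (conjW_spec D hN γ)

/-! ### `W² = Q γ₀`, `γ₀ ∈ Γ₀(N)` -/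

/-- The matrix `γ₀ = W² / Q`. -/
def wSqMat (D : ALData) : Matrix (Fin 2) (Fin 2) ℤ :=
  !![D.Q * D.a ^ 2 + D.R * D.b, D.b * (D.a + 1); D.R * D.Q * (D.a + 1), D.R * D.b + D.Q]

theorem det_wSqMat (D : ALData) : (wSqMat D).det = 1 := by
  simp only [wSqMat, Matrix.det_fin_two_of]
  linear_combination (D.Q * D.a - D.R * D.b + 1) * D.hdet

theorem wInt_mul_self (D : ALData) : wInt D * wInt D = (D.Q : ℤ) • wSqMat D := by
  ext i j
  fin_cases i <;> fin_cases j <;>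
    simp [wInt, wSqMat, Matrix.mul_apply, Fin.sum_univ_two] <;> ring

/-- `γ₀ = W² / Q` as an element of `Γ₀(N)`. -/
def wSq (D : ALData) (hN : N = D.Q * D.R) : ↥(Gamma0 N) :=
  ⟨⟨wSqMat D, det_wSqMat D⟩, Fermat.Agent.LDeg.mem_Gamma0_iff_dvd.mpr (by
    rw [hN]
    show ((D.Q * D.R : ℕ) : ℤ) ∣ wSqMat D 1 0
    simp only [wSqMat, Matrix.of_apply, Matrix.cons_val', Matrix.cons_val_zero,
      Matrix.cons_val_one]
    push_cast
    exact ⟨D.a + 1, by ring⟩)⟩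

theorem coe_wSq (D : ALData) (hN : N = D.Q * D.R) :
    (((wSq D hN : ↥(Gamma0 N)) : SL(2, ℤ)) : Matrix (Fin 2) (Fin 2) ℤ) = wSqMat D := rfl

/-- `conj_W ∘ conj_W` is the conjugation by `γ₀ ∈ Γ₀(N)`. -/
theorem conjW_conjW (D : ALData) (hN : N = D.Q * D.R) (γ : ↥(Gamma0 N)) :
    conjW D hN (conjW D hN γ) = wSq D hN * γ * (wSq D hN)⁻¹ := by
  apply conjW_unique
  apply mul_right_cancel_of_det (det_wInt_ne_zero D)
  rw [Matrix.mul_assoc, Matrix.mul_assoc, wInt_mul_self, ← conjW_spec D hN γ, ← Matrix.mul_assoc,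
    wInt_mul_self]
  have h1 : (((wSq D hN * γ * (wSq D hN)⁻¹ : ↥(Gamma0 N)) : SL(2, ℤ)) :
      Matrix (Fin 2) (Fin 2) ℤ) * wSqMat D = wSqMat D * ((γ : SL(2, ℤ)) :
        Matrix (Fin 2) (Fin 2) ℤ) := by
    rw [← coe_wSq D hN, ← Matrix.SpecialLinearGroup.coe_mul, ← Subgroup.coe_mul,
      ← Matrix.SpecialLinearGroup.coe_mul, ← Subgroup.coe_mul, inv_mul_cancel_right]
  rw [Matrix.mul_smul, Matrix.smul_mul, h1]

theorem conjW_injective (D : ALData) (hN : N = D.Q * D.R) : Function.Injective (conjW D hN) := by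
  intro γ γ' h
  have h1 := congrArg (conjW D hN) h
  rw [conjW_conjW, conjW_conjW] at h1
  exact mul_left_cancel (mul_right_cancel h1)

theorem conjW_surjective (D : ALData) (hN : N = D.Q * D.R) :
    Function.Surjective (conjW D hN) := by
  intro γ
  refine ⟨conjW D hN ((wSq D hN)⁻¹ * γ * wSq D hN), ?_⟩
  rw [conjW_conjW]
  group

/-- A homomorphism to an abelian group is invariant under `conj_W ∘ conj_W`. -/
theorem hom_conjW_conjW {A : Type*} [CommGroup A] (D : ALData) (hN : N = D.Q * D.R)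
    (χ : ↥(Gamma0 N) →* A) (γ : ↥(Gamma0 N)) : χ (conjW D hN (conjW D hN γ)) = χ γ := by
  rw [conjW_conjW, map_mul, map_mul, map_inv, mul_comm (χ _) (χ γ), mul_inv_cancel_right]

/-! ### Hermite decomposition of integer matrices -/

/-- Every integer matrix of non-zero determinant is `g' T` with `g' ∈ SL(2, ℤ)` and `T` upper
triangular. -/
theorem exists_SL_mul_upper (M : Matrix (Fin 2) (Fin 2) ℤ) (hM : M.det ≠ 0) :
    ∃ (g' : SL(2, ℤ)) (T : Matrix (Fin 2) (Fin 2) ℤ), T 1 0 = 0 ∧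
      M = (g' : Matrix (Fin 2) (Fin 2) ℤ) * T := by
  have hg0 : ((Int.gcd (M 0 0) (M 1 0) : ℕ) : ℤ) ≠ 0 := by
    intro h0
    have h1 : Int.gcd (M 0 0) (M 1 0) = 0 := by exact_mod_cast h0
    rw [Int.gcd_eq_zero_iff] at h1
    apply hM
    rw [Matrix.det_fin_two, h1.1, h1.2]
    ring
  obtain ⟨A', hA'⟩ : ((Int.gcd (M 0 0) (M 1 0) : ℕ) : ℤ) ∣ M 0 0 := Int.gcd_dvd_left _ _
  obtain ⟨C', hC'⟩ : ((Int.gcd (M 0 0) (M 1 0) : ℕ) : ℤ) ∣ M 1 0 := Int.gcd_dvd_right _ _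
  have hbez : ((Int.gcd (M 0 0) (M 1 0) : ℕ) : ℤ) =
      M 0 0 * Int.gcdA (M 0 0) (M 1 0) + M 1 0 * Int.gcdB (M 0 0) (M 1 0) :=
    Int.gcd_eq_gcd_ab _ _
  generalize ((Int.gcd (M 0 0) (M 1 0) : ℕ) : ℤ) = g at hg0 hA' hC' hbez
  generalize Int.gcdA (M 0 0) (M 1 0) = u at hbez
  generalize Int.gcdB (M 0 0) (M 1 0) = v at hbez
  have hbez' : A' * u + C' * v = 1 := by
    have h1 : g * (A' * u + C' * v) = g * 1 := by
      rw [mul_one]
      calc g * (A' * u + C' * v) = (g * A') * u + (g * C') * v := by ring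
        _ = g := by rw [← hA', ← hC', ← hbez]
    exact mul_left_cancel₀ hg0 h1
  refine ⟨⟨!![A', -v; C', u], by rw [Matrix.det_fin_two_of]; linear_combination hbez'⟩,
    !![g, u * M 0 1 + v * M 1 1; 0, A' * M 1 1 - C' * M 0 1], by simp, ?_⟩
  ext i j
  fin_cases i <;> fin_cases j
  · simp only [Matrix.mul_apply, Fin.sum_univ_two, Fin.zero_eta, Fin.isValue,
      Matrix.of_apply, Matrix.cons_val', Matrix.cons_val_zero, Matrix.cons_val_one]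
    rw [hA']
    ring
  · simp only [Matrix.mul_apply, Fin.sum_univ_two, Fin.zero_eta, Fin.mk_one,
      Fin.isValue, Matrix.of_apply, Matrix.cons_val', Matrix.cons_val_zero, Matrix.cons_val_one]
    linear_combination (-(M 0 1)) * hbez'
  · simp only [Matrix.mul_apply, Fin.sum_univ_two, Fin.zero_eta, Fin.mk_one,
      Fin.isValue, Matrix.of_apply, Matrix.cons_val', Matrix.cons_val_zero, Matrix.cons_val_one]
    rw [hC']
    ring
  · simp only [Matrix.mul_apply, Fin.sum_univ_two, Fin.mk_one, Fin.isValue,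
      Matrix.of_apply, Matrix.cons_val', Matrix.cons_val_zero, Matrix.cons_val_one]
    linear_combination (-(M 1 1)) * hbez'

/-- `W g = g' T` in `GL₂(ℝ)`, `T` upper triangular. -/
theorem exists_wGL_mul (D : ALData) (g : SL(2, ℤ)) :
    ∃ (g' : SL(2, ℤ)) (T : GL (Fin 2) ℝ), T 1 0 = 0 ∧
      wGL D * mapGL ℝ g = mapGL ℝ g' * T := by
  have hdet : (wInt D * (g : Matrix (Fin 2) (Fin 2) ℤ)).det ≠ 0 := by
    rw [Matrix.det_mul, g.det_coe, mul_one]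
    exact det_wInt_ne_zero D
  obtain ⟨g', T, hT, hMT⟩ := exists_SL_mul_upper _ hdet
  have hTdet : T.det ≠ 0 := by
    intro h0
    apply hdet
    rw [hMT, Matrix.det_mul, h0, mul_zero]
  refine ⟨g', intGL T hTdet, ?_, ?_⟩
  · show ((intGL T hTdet : GL (Fin 2) ℝ) : Matrix (Fin 2) (Fin 2) ℝ) 1 0 = 0
    rw [coe_intGL]
    simp [hT]
  · rw [mapGL_eq_intGL, mapGL_eq_intGL, wGL]
    exact (intGL_mul_eq_mul_iff _ _ _ _).mpr hMT

/-! ### Forms with character under `W` -/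

variable {k : ℤ} {χ : ↥(Gamma0 N) →* ℂˣ} {f : ℍ → ℂ}

/-- **Forms with character under the Atkin–Lehner operator**: if `f` has character `χ` on
`Γ₀(N)`, `N = Q R`, then `f ∣[k] W` has character `χ ∘ conj_W`. -/
theorem IsFormChar.slashW (D : ALData) (hN : N = D.Q * D.R) (hf : IsFormChar N k χ f) :
    IsFormChar N k (χ.comp (conjW D hN)) (f ∣[k] wGL D) := by
  refine ⟨hf.mdiff.slash k _, fun γ => ?_, fun g => ?_⟩
  · have h1 : (f ∣[k] wGL D) ∣[k] (γ : SL(2, ℤ))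
        = f ∣[k] (wGL D * mapGL ℝ (γ : SL(2, ℤ))) := by
      rw [SlashAction.slash_mul]
      rfl
    rw [h1, wGL_mul_mapGL D hN γ, SlashAction.slash_mul]
    have h2 : f ∣[k] (mapGL ℝ ((conjW D hN γ : ↥(Gamma0 N)) : SL(2, ℤ)))
        = ((χ (conjW D hN γ) : ℂˣ) : ℂ) • f := hf.slash (conjW D hN γ)
    rw [h2, smul_slash_wGL]
    rfl
  · have h1 : (f ∣[k] wGL D) ∣[k] g = f ∣[k] (wGL D * mapGL ℝ g) := by
      rw [SlashAction.slash_mul]
      rfl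
    obtain ⟨g', T, hT, hmul⟩ := exists_wGL_mul D g
    rw [h1, hmul, SlashAction.slash_mul]
    exact IsBoundedAtImInfty.slash k hT (hf.bdd g')

end Fermat.Agent.F3DegW
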