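/-
S35 WP D, part Dw (helper7): the Atkin–Lehner operator on parabolic homomorphisms,
    `wPar D : HomPar N → HomPar N`,  `(wPar D c)(γ) = c (W γ W⁻¹)`      (`N = Q R`),
its character `charOf n (wPar D c) = (charOf n c) ∘ conj_W`, and the group theory (W4):
    `coresPar N₀ q (wPar D c) = coresParD N₀ q c`      (`Q = q`, `R = N₀`).
-/
import Mathlib
import Fermat.Agent.F3.I2.Deg.ALForm
import Fermat.Agent.F3.I2.Kappa.CharOf
import Fermat.Agent.L.Degen.CoresIndex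
import Fermat.Agent.L.Degen.Wreath2

set_option autoImplicit false
set_option linter.unusedVariables false
set_option linter.style.haveILetI false
set_option linter.unusedSectionVars false

noncomputable section

namespace Fermat.Agent.F3DegW

open UpperHalfPlane CongruenceSubgroup Matrix.SpecialLinearGroup ModularCurve.Period
open Fermat.Agent.AtkinLehner (ALData)
open Fermat.Agent.F3I2 Fermat.Agent.F3EC Fermat.Agent.LDeg
open scoped MatrixGroups

variable {N : ℕ}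

/-! ### `conj_W` as an automorphism -/

/-- `conj_W` as an automorphism of `Γ₀(N)`. -/
def conjWEquiv (D : ALData) (hN : N = D.Q * D.R) : ↥(Gamma0 N) ≃* ↥(Gamma0 N) :=
  MulEquiv.ofBijective (conjW D hN) ⟨conjW_injective D hN, conjW_surjective D hN⟩

@[simp] theorem conjWEquiv_apply (D : ALData) (hN : N = D.Q * D.R) (γ : ↥(Gamma0 N)) :
    conjWEquiv D hN γ = conjW D hN γ := rfl

theorem conjW_symm_apply (D : ALData) (hN : N = D.Q * D.R) (γ : ↥(Gamma0 N)) :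
    conjW D hN ((conjWEquiv D hN).symm γ) = γ :=
  (conjWEquiv D hN).apply_symm_apply γ

/-- An additive homomorphism is invariant under `conj_W ∘ conj_W`. -/
theorem addHom_conjW_conjW {A : Type*} [AddCommGroup A] (D : ALData) (hN : N = D.Q * D.R)
    (c : Additive ↥(Gamma0 N) →+ A) (γ : ↥(Gamma0 N)) :
    c (Additive.ofMul (conjW D hN (conjW D hN γ))) = c (Additive.ofMul γ) := by
  rw [conjW_conjW, ofMul_mul, ofMul_mul, ofMul_inv, map_add, map_add, map_neg]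
  abel

/-- For an additive homomorphism, `c ∘ conj_W⁻¹ = c ∘ conj_W`. -/
theorem addHom_conjW_symm {A : Type*} [AddCommGroup A] (D : ALData) (hN : N = D.Q * D.R)
    (c : Additive ↥(Gamma0 N) →+ A) (γ : ↥(Gamma0 N)) :
    c (Additive.ofMul ((conjWEquiv D hN).symm γ)) = c (Additive.ofMul (conjW D hN γ)) := by
  rw [← addHom_conjW_conjW D hN c ((conjWEquiv D hN).symm γ), conjW_symm_apply]

/-! ### (W1) `wPar` -/

/-- `c ↦ c ∘ conj_W` on all homomorphisms. -/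
def wAll (D : ALData) (hN : N = D.Q * D.R) {A : Type*} [AddCommGroup A]
    (c : Additive ↥(Gamma0 N) →+ A) : Additive ↥(Gamma0 N) →+ A :=
  c.comp (MonoidHom.toAdditive (conjW D hN))

@[simp] theorem wAll_apply (D : ALData) (hN : N = D.Q * D.R) {A : Type*} [AddCommGroup A]
    (c : Additive ↥(Gamma0 N) →+ A) (γ : ↥(Gamma0 N)) :
    wAll D hN c (Additive.ofMul γ) = c (Additive.ofMul (conjW D hN γ)) := rfl

theorem wAll_parabolic (D : ALData) (hN : N = D.Q * D.R) {A : Type*} [AddCommGroup A]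
    {c : Additive ↥(Gamma0 N) →+ A} (hc : IsParabolicHom (Gamma0 N) c) :
    IsParabolicHom (Gamma0 N) (wAll D hN c) := fun γ hγ =>
  hc (conjW D hN γ) (by rw [trace_conjW]; exact hγ)

/-- `wPar` as an additive map. -/
def wParAdd (D : ALData) (hN : N = D.Q * D.R) : HomPar N →+ HomPar N where
  toFun c := ⟨wAll D hN c.1, wAll_parabolic D hN c.2⟩
  map_zero' := rfl
  map_add' _ _ := rfl

/-- **(W1)** The Atkin–Lehner operator on `HomPar N`, `N = Q R`: `(wPar D c)(γ) = c (W γ W⁻¹)`. -/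
def wPar (D : ALData) (hN : N = D.Q * D.R) : HomPar N →ₗ[ℤ] HomPar N :=
  (wParAdd D hN).toIntLinearMap

@[simp] theorem wPar_coe (D : ALData) (hN : N = D.Q * D.R) (c : HomPar N) :
    ((wPar D hN c : HomPar N) : Additive ↥(Gamma0 N) →+ ℤ) = wAll D hN c.1 := rfl

theorem wPar_apply (D : ALData) (hN : N = D.Q * D.R) (c : HomPar N) (γ : ↥(Gamma0 N)) :
    ((wPar D hN c : HomPar N) : Additive ↥(Gamma0 N) →+ ℤ) (Additive.ofMul γ) =
      (c : Additive ↥(Gamma0 N) →+ ℤ) (Additive.ofMul (conjW D hN γ)) := rfl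

/-- `wPar` is an involution. -/
theorem wPar_wPar (D : ALData) (hN : N = D.Q * D.R) (c : HomPar N) :
    wPar D hN (wPar D hN c) = c := by
  apply Subtype.ext
  refine AddMonoidHom.ext fun γ => ?_
  obtain ⟨γ, rfl⟩ := Additive.ofMul.surjective γ
  rw [wPar_apply, wPar_apply]
  exact addHom_conjW_conjW D hN c.1 γ

/-- **(d)** The character of `wPar D c`. -/
theorem charOf_wPar (D : ALData) (hN : N = D.Q * D.R) (n : ℕ) (c : HomPar N) :
    charOf n (wPar D hN c) = (charOf n c).comp (conjW D hN) := by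
  refine MonoidHom.ext fun γ => ?_
  rfl

/-! ### Wreath homs: change of the target group -/

section MapElt

variable {G Γ Γ' Γ'' : Type*} [Group G] [Group Γ] [Group Γ'] [Group Γ''] {I : Type*}

/-- Composition of a wreath hom with a homomorphism of the target groups. -/
def wreathMapElt (F : WreathHom Γ Γ' I) (ψ : Γ' →* Γ'') : WreathHom Γ Γ'' I where
  perm := F.perm
  elt γ i := ψ (F.elt γ i)
  perm_one := F.perm_one
  perm_mul := F.perm_mul
  elt_mul γ δ i := by rw [F.elt_mul, map_mul]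

theorem wreathMapElt_op [Fintype I] (F : WreathHom Γ Γ' I) (ψ : Γ' →* Γ'') (A : Type*)
    [AddCommGroup A] (c : Additive Γ'' →+ A) :
    (wreathMapElt F ψ).op A c = F.op A (c.comp (MonoidHom.toAdditive ψ)) := by
  refine AddMonoidHom.ext fun γ => ?_
  obtain ⟨γ, rfl⟩ := Additive.ofMul.surjective γ
  rfl

theorem wreathMapElt_realizes {F : WreathHom Γ Γ' I} {ι : Γ →* G} {ι' : Γ' →* G}
    {ι'' : Γ'' →* G} {rep : I → G} (hF : F.Realizes ι ι' rep) (ψ : Γ' →* Γ'')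
    (h : ∀ e, ι'' (ψ e) = ι' e) : (wreathMapElt F ψ).Realizes ι ι'' rep := by
  intro γ i
  show rep i * ι γ = ι'' (ψ (F.elt γ i)) * rep (F.perm γ i)
  rw [h]
  exact hF γ i

end MapElt

/-! ### (W4) `coresPar ∘ wPar = coresParD` -/

section Cores

variable {N₀ q : ℕ} [NeZero q]

/-- `n₀ = (a, b; R, Q) ∈ Γ₀(N₀)`, `R = N₀`: `W = n₀ diag(Q, 1)`. -/
def alN (D : ALData) (N₀ : ℕ) : ↥(Gamma0 N₀) :=
  mkGamma0 N₀ !![D.a, D.b; (D.R : ℤ), (D.Q : ℤ)]

theorem coe_alN (D : ALData) (hR : D.R = N₀) :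
    (((alN D N₀ : ↥(Gamma0 N₀)) : SL(2, ℤ)) : Matrix (Fin 2) (Fin 2) ℤ) =
      !![D.a, D.b; (D.R : ℤ), (D.Q : ℤ)] :=
  coe_mkGamma0 (by rw [Matrix.det_fin_two_of]; linear_combination D.hdet)
    (by simp [hR])

theorem wInt_eq_alN_mul (D : ALData) (hR : D.R = N₀) :
    wInt D = (((alN D N₀ : ↥(Gamma0 N₀)) : SL(2, ℤ)) : Matrix (Fin 2) (Fin 2) ℤ) *
      !![(D.Q : ℤ), 0; 0, 1] := by
  rw [coe_alN D hR, wInt]
  ext i j
  fin_cases i <;> fin_cases j <;> simp [Matrix.mul_apply, Fin.sum_univ_two] <;> ring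

theorem diag_mul_eq_inclD (e : ↥(Gamma0 (N₀ * q))) :
    (!![(q : ℤ), 0; 0, 1] : Matrix (Fin 2) (Fin 2) ℤ) *
        ((e : SL(2, ℤ)) : Matrix (Fin 2) (Fin 2) ℤ) =
      (((L.inclD N₀ q e : ↥(Gamma0 N₀)) : SL(2, ℤ)) : Matrix (Fin 2) (Fin 2) ℤ) *
        !![(q : ℤ), 0; 0, 1] := by
  obtain ⟨c, hc⟩ := L.q_dvd_of_mem N₀ q e.2
  have hq : (q : ℤ) ≠ 0 := by exact_mod_cast NeZero.ne q
  rw [L.inclD_coe, L.conjDMat]
  ext i j
  fin_cases i <;> fin_cases j
  · simp [Matrix.mul_apply, Fin.sum_univ_two]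
    ring
  · simp [Matrix.mul_apply, Fin.sum_univ_two]
  · simp only [Matrix.mul_apply, Fin.sum_univ_two, Fin.zero_eta, Fin.mk_one,
      Fin.isValue, Matrix.of_apply, Matrix.cons_val', Matrix.cons_val_zero, Matrix.cons_val_one]
    rw [hc, Int.mul_ediv_cancel_left _ hq]
    ring
  · simp [Matrix.mul_apply, Fin.sum_univ_two]

/-- `incl (W e W⁻¹) · n₀ = n₀ · (δ e δ⁻¹)`. -/
theorem incl_conjW_mul_alN (D : ALData) (hQ : D.Q = q) (hR : D.R = N₀)
    (hN : N₀ * q = D.Q * D.R) (e : ↥(Gamma0 (N₀ * q))) :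
    L.incl N₀ q (conjW D hN e) * alN D N₀ = alN D N₀ * L.inclD N₀ q e := by
  apply Gamma0_ext
  have hδ : (!![(D.Q : ℤ), 0; 0, 1] : Matrix (Fin 2) (Fin 2) ℤ).det ≠ 0 := by
    rw [Matrix.det_fin_two_of]
    simp only [mul_one, mul_zero, sub_zero]
    exact_mod_cast D.hQ.ne'
  apply mul_right_cancel_of_det hδ
  have hδq : (!![(D.Q : ℤ), 0; 0, 1] : Matrix (Fin 2) (Fin 2) ℤ) = !![(q : ℤ), 0; 0, 1] := by
    rw [hQ]
  have hL : (((L.incl N₀ q (conjW D hN e) * alN D N₀ : ↥(Gamma0 N₀)) : SL(2, ℤ)) :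
      Matrix (Fin 2) (Fin 2) ℤ) * !![(D.Q : ℤ), 0; 0, 1] =
        wInt D * ((e : SL(2, ℤ)) : Matrix (Fin 2) (Fin 2) ℤ) := by
    rw [coe_Gamma0_mul, L.incl_coe, Matrix.mul_assoc, ← wInt_eq_alN_mul D hR,
      ← conjW_spec D hN e]
  have hR' : (((alN D N₀ * L.inclD N₀ q e : ↥(Gamma0 N₀)) : SL(2, ℤ)) :
      Matrix (Fin 2) (Fin 2) ℤ) * !![(D.Q : ℤ), 0; 0, 1] =
        wInt D * ((e : SL(2, ℤ)) : Matrix (Fin 2) (Fin 2) ℤ) := by
    rw [coe_Gamma0_mul, Matrix.mul_assoc, hδq, ← diag_mul_eq_inclD e, ← hδq, ← Matrix.mul_assoc,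
      ← wInt_eq_alN_mul D hR]
  rw [hL, hR']

/-- **(W4)** on all homomorphisms. -/
theorem coresAll_wAll (D : ALData) (hq : q.Prime) (hqN : ¬ q ∣ N₀) (hQ : D.Q = q)
    (hR : D.R = N₀) (hN : N₀ * q = D.Q * D.R) {A : Type*} [AddCommGroup A]
    (c : Additive ↥(Gamma0 (N₀ * q)) →+ A) :
    L.coresAll N₀ q A (wAll D hN c) = L.coresAllD N₀ q A c := by
  rw [coresAll_eq_op hq hqN]
  -- the wreath hom of `incl`, with `elt` twisted by `conj_W⁻¹`
  set ψ : ↥(Gamma0 (N₀ * q)) →* ↥(Gamma0 (N₀ * q)) := (conjWEquiv D hN).symm.toMonoidHom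
    with hψ
  have hψc : ∀ e, conjW D hN (ψ e) = e := fun e => conjW_symm_apply D hN e
  have h1 : (wreathMapElt (coresW hq hqN) ψ).Realizes (MonoidHom.id ↥(Gamma0 N₀))
      ((L.incl N₀ q).comp (conjW D hN)) (coresRep N₀ q) :=
    wreathMapElt_realizes (coresW_realizes hq hqN) ψ fun e => by
      rw [MonoidHom.comp_apply, hψc]
  have hconj : ∀ e, (alN D N₀)⁻¹ * ((L.incl N₀ q).comp (conjW D hN)) e =
      L.inclD N₀ q e * (alN D N₀)⁻¹ := by
    intro e
    rw [MonoidHom.comp_apply, inv_mul_eq_iff_eq_mul, ← mul_assoc, eq_mul_inv_iff_mul_eq]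
    exact incl_conjW_mul_alN D hQ hR hN e
  have h2 := WreathHom.Realizes.of_conj h1 (alN D N₀)⁻¹ hconj
  have hd1 : CosetsDistinct ((L.incl N₀ q).comp (conjW D hN)) (coresRep N₀ q) := by
    intro i j n hn
    exact distinct_incl hq hqN i j (conjW D hN n) hn
  have hd2 := WreathHom.cosetsDistinct_of_conj hd1 (alN D N₀)⁻¹ hconj
  have h3 := coresFun_eq_op (L.inclD N₀ q) (L.inclD_injective N₀ q)
    (wreathMapElt (coresW hq hqN) ψ) _ h2 hd2 A c
  rw [L.coresAllD, h3, wreathMapElt_op]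
  congr 1
  refine AddMonoidHom.ext fun γ => ?_
  obtain ⟨γ, rfl⟩ := Additive.ofMul.surjective γ
  rw [wAll_apply]
  exact (addHom_conjW_symm D hN c γ).symm

/-- **(W4)** `coresPar N₀ q (wPar D c) = coresParD N₀ q c` (`Q = q`, `R = N₀`). -/
theorem coresPar_wPar (D : ALData) (hq : q.Prime) (hqN : ¬ q ∣ N₀) (hQ : D.Q = q)
    (hR : D.R = N₀) (hN : N₀ * q = D.Q * D.R) (c : HomPar (N₀ * q)) :
    coresPar N₀ q (wPar D hN c) = coresParD N₀ q c := by
  apply Subtype.ext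
  rw [coresPar_coe, coresParD_coe, wPar_coe]
  exact coresAll_wAll D hq hqN hQ hR hN c.1

end Cores

end Fermat.Agent.F3DegW
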