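/-
Cluster T / S35, WP D, piece (b) (helper43): **ratios of modular forms under the Atkin–Lehner
involution**, over `ℂ`.

`N = D.Q * D.R`, `W = D.W` (helper84's Möbius transformation of `ℍ`), `wC` the Atkin–Lehner
involution of `FC N` (helper7's port `F3DegW.atkinLehnerC` to `ℂ` of helper84's `atkinLehner`).  If `x = F / G` (`F, G` modular
forms on `Γ₀(N)`) and `F', G'` are modular forms on `Γ₀(N)` with `F' = u · (F ∘ W)`,
`G' = u · (G ∘ W)` for some function `u` (the automorphy factor), then `wC x = F' / G'`.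
-/
import Mathlib
import Fermat.Agent.F3.I2.Deg.ALC
import Fermat.Agent.F3.Dict.RatioBridge
import Fermat.Agent.F3.I2.Kappa.Ratio

set_option autoImplicit false
set_option linter.style.haveILetI false
set_option linter.unusedSectionVars false

noncomputable section

namespace Fermat.Agent.F3DegR

open UpperHalfPlane CongruenceSubgroup ModularCurve
open Fermat.Agent.F3Dict Fermat.Agent.F3Ratio Fermat.Agent.F3I2 Fermat.Agent.S23
open Fermat.Agent.AtkinLehner (ALData)
open Fermat.Agent.F3DegW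
open scoped MatrixGroups ModularForm

/-- A function on `ℍ` as an element of `Fun`. -/
def asFun (F : ℍ → ℂ) : Fun := F

@[simp] theorem asFun_apply (F : ℍ → ℂ) (τ : ℍ) : asFun F τ = F τ := rfl

/-- The `q`-expansion of a modular form on `Γ₀(N)`, as an expansion in `u₁ = q`. -/
theorem hasExp_one_of_isMF {N : ℕ} {w : ℤ} {F : ℍ → ℂ} (hF : IsMF (G0 N) w F) :
    HasExp 1 (asFun F) (qLaurent F) := by
  obtain ⟨A, rfl⟩ := hF
  exact HasExp.of_hasPExp (hasPExp_mfFun A)

/-- **Ratio ⇒ functions**: if `x = F / G` and `x = a / b` with `a, b ∈ B_N`, then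
`F · b = G · a` on `ℍ`. -/
theorem mul_eq_mul_of_isRatioF {N : ℕ} {x : ↥(F3I2.FC N)} {F G : ℍ → ℂ}
    (h : IsRatioF N x F G) (a b : BN N) (hb : b ≠ 0)
    (hx : x = equivF N (algebraMap (BN N) (FB N) a / algebraMap (BN N) (FB N) b)) (τ : ℍ) :
    F τ * (b : Fun) τ = G τ * (a : Fun) τ := by
  obtain ⟨-, ⟨w, hFm, hGm⟩, hq⟩ := h
  have hbexp : expB N b ≠ 0 := by
    intro h0
    exact hb (expB_injective N (h0.trans (map_zero _).symm))
  have hcoe : (x : LaurentSeries Kc) = expB N a / expB N b := by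
    rw [hx, coe_equivF, map_div₀, expFB_algebraMap, expFB_algebraMap]
  have h1 : HasExp 1 (asFun F * (b : Fun)) (qLaurent F * expB N b) :=
    (hasExp_one_of_isMF hFm).mul (hasExp_expB N b)
  have h2 : HasExp 1 (asFun G * (a : Fun)) (qLaurent G * expB N a) :=
    (hasExp_one_of_isMF hGm).mul (hasExp_expB N a)
  have key : qLaurent F * expB N b = qLaurent G * expB N a := by
    rw [hq, hcoe]
    field_simp
  rw [key] at h1
  have h3 := h1.fun_unique h2
  have h4 := congrArg (fun f : Fun => f τ) h3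
  exact h4

/-- **Functions ⇒ ratio**: if `x = a / b` with `a, b ∈ B_N` and `F · b = G · a` on `ℍ` for
modular forms `F, G` on `Γ₀(N)`, then `x = F / G`. -/
theorem isRatioF_of_mul_eq_mul {N : ℕ} {x : ↥(F3I2.FC N)} {w : ℤ} {F G : ℍ → ℂ}
    (hF : IsMF (G0 N) w F) (hG : IsMF (G0 N) w G) (hG0 : G ≠ 0) (a b : BN N) (hb : b ≠ 0)
    (hx : x = equivF N (algebraMap (BN N) (FB N) a / algebraMap (BN N) (FB N) b))
    (hmul : ∀ τ : ℍ, F τ * (b : Fun) τ = G τ * (a : Fun) τ) : IsRatioF N x F G := by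
  refine ⟨hG0, ⟨w, hF, hG⟩, ?_⟩
  have hbexp : expB N b ≠ 0 := by
    intro h0
    exact hb (expB_injective N (h0.trans (map_zero _).symm))
  have hcoe : (x : LaurentSeries Kc) = expB N a / expB N b := by
    rw [hx, coe_equivF, map_div₀, expFB_algebraMap, expFB_algebraMap]
  have h1 : HasExp 1 (asFun F * (b : Fun)) (qLaurent F * expB N b) :=
    (hasExp_one_of_isMF hF).mul (hasExp_expB N b)
  have h2 : HasExp 1 (asFun G * (a : Fun)) (qLaurent G * expB N a) :=
    (hasExp_one_of_isMF hG).mul (hasExp_expB N a)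
  have hfun : asFun F * (b : Fun) = asFun G * (a : Fun) := by
    ext τ
    exact hmul τ
  rw [hfun] at h1
  have key := h1.unique h2
  rw [hcoe, div_mul_eq_mul_div, eq_div_iff hbexp, key]
  ring

/-- **(Dw-C), the analytic core for `w`**: if `x = F / G` on `Γ₀(N)`, `N = D.Q * D.R`, and
`F' = u · (F ∘ W)`, `G' = u · (G ∘ W)` are modular forms on `Γ₀(N)`, then `w x = F' / G'`. -/
theorem isRatioF_atkinLehner (D : ALData) {x : ↥(F3I2.FC (D.Q * D.R))} {F G : ℍ → ℂ}
    (h : IsRatioF (D.Q * D.R) x F G) {w' : ℤ} {F' G' : ℍ → ℂ}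
    (hF' : IsMF (G0 (D.Q * D.R)) w' F') (hG' : IsMF (G0 (D.Q * D.R)) w' G') (hG'0 : G' ≠ 0)
    (u : ℍ → ℂ) (hFu : ∀ τ, F' τ = u τ * F (D.W τ)) (hGu : ∀ τ, G' τ = u τ * G (D.W τ)) :
    IsRatioF (D.Q * D.R) (atkinLehnerC D x) F' G' := by
  obtain ⟨a, b, hb, hab⟩ := IsFractionRing.div_surjective (A := BN (D.Q * D.R))
    ((equivF (D.Q * D.R)).symm x)
  have hb0 : b ≠ 0 := nonZeroDivisors.ne_zero hb
  have hx : x = equivF (D.Q * D.R)
      (algebraMap (BN (D.Q * D.R)) (FB (D.Q * D.R)) a /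
        algebraMap (BN (D.Q * D.R)) (FB (D.Q * D.R)) b) := by
    rw [hab, AlgEquiv.apply_symm_apply]
  have hmul := mul_eq_mul_of_isRatioF h a b hb0 hx
  have hwb : wB D b ≠ 0 := fun h0 => hb0 ((wB D).injective (h0.trans (map_zero _).symm))
  refine isRatioF_of_mul_eq_mul hF' hG' hG'0 (wB D a) (wB D b) hwb ?_ fun τ => ?_
  · rw [hx, atkinLehnerC_apply, AlgEquiv.symm_apply_apply, map_div₀, wFB_algebraMap,
      wFB_algebraMap]
  · have e1 : ((wB D b : BN (D.Q * D.R)) : Fun) τ = (b : Fun) (D.W τ) := rfl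
    have e2 : ((wB D a : BN (D.Q * D.R)) : Fun) τ = (a : Fun) (D.W τ) := rfl
    rw [e1, e2, hFu, hGu, mul_assoc, hmul (D.W τ), mul_assoc]

end Fermat.Agent.F3DegR
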