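/-
S35 WP D, part Dw (helper7): `IsTheta` under the Atkin–Lehner involution, over `ℂ`:
    `IsTheta N n χ c → IsTheta N n (χ ∘ conj_W) c'`,    `N = Q R`,
for every class `c'` that is the class of a root divisor of `w x` whenever `c` is the class of a
root divisor of `x` (i.e. for `c' = w_* c`).
-/
import Mathlib
import Fermat.Agent.F3.I2.Deg.ALForm
import Fermat.Agent.F3.I2.Deg.ALRatio
import Fermat.Agent.F3.I2.Kappa.Theta

set_option autoImplicit false
set_option linter.unusedVariables false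
set_option linter.style.haveILetI false
set_option linter.unusedSectionVars false

noncomputable section

namespace Fermat.Agent.F3DegW

open UpperHalfPlane CongruenceSubgroup ModularCurve AlgebraicCurve
open Fermat.Agent.AtkinLehner (ALData)
open Fermat.Agent.F3I2 Fermat.Agent.S23 Fermat.Agent.F3DegR
open scoped MatrixGroups ModularForm Manifold

/-- **`IsTheta` and `w`** (analytic core): if `c` is the class attached to the character `χ`,
and `c'` is the class of a root divisor of `w x` whenever `c` is the class of a root divisor of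
`x`, then `c'` is the class attached to `χ ∘ conj_W`. -/
theorem isTheta_slashW (D : ALData) {n : ℕ} {χ : ↥(Gamma0 (D.Q * D.R)) →* ℂˣ}
    {c c' : Pic0 ℂ (FC (D.Q * D.R))} (h : IsTheta (D.Q * D.R) n χ c)
    (hpush : ∀ (x : FC (D.Q * D.R)) (E : Divisor.degZero (K := ℂ) (F := FC (D.Q * D.R))),
      IsRootDiv n x E → Pic0.mk E = c →
        ∃ E' : Divisor.degZero (K := ℂ) (F := FC (D.Q * D.R)),
          IsRootDiv n (atkinLehnerC D x) E' ∧ Pic0.mk E' = c') :
    IsTheta (D.Q * D.R) n (χ.comp (conjW D rfl)) c' := by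
  haveI : NeZero (D.Q * D.R) := ⟨(Nat.mul_pos D.hQ D.hR).ne'⟩
  obtain ⟨hχ, w, f, B, x, E, hf, hB, hf0, hB0, hr, hE, hc⟩ := h
  obtain ⟨E', hE', hc'⟩ := hpush x E hE hc
  have hχ' : ∀ γ, (χ.comp (conjW D rfl)) γ ^ n = 1 := fun γ => hχ _
  have hf' : IsFormChar (D.Q * D.R) w (χ.comp (conjW D rfl)) (f ∣[w] wGL D) :=
    IsFormChar.slashW D rfl hf
  have hB' : IsFormChar (D.Q * D.R) w 1 (B ∣[w] wGL D) :=
    (IsFormChar.slashW D rfl hB).cast rfl (MonoidHom.one_comp _)
  refine ⟨hχ', w, f ∣[w] wGL D, B ∣[w] wGL D, atkinLehnerC D x, E', hf', hB',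
    slash_wGL_ne_zero D w hf0, slash_wGL_ne_zero D w hB0, ?_, hE', hc'⟩
  have hfm : IsMF (G0 (D.Q * D.R)) ((n : ℤ) * w) ((f ∣[w] wGL D) ^ n) := hf'.pow_isMF hχ'
  have hBm : IsMF (G0 (D.Q * D.R)) ((n : ℤ) * w) ((B ∣[w] wGL D) ^ n) :=
    (hB'.isMF.pow n).cast (mul_comm _ _)
  exact isRatioF_atkinLehner D hr hfm hBm (pow_ne_zero_fun (slash_wGL_ne_zero D w hB0) n)
    (fun τ => autW D w τ ^ n) (slash_wGL_pow D w f n) (slash_wGL_pow D w B n)

end Fermat.Agent.F3DegW
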