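/-
S35 WP D, part Dw (helper7): `κ` and the Atkin–Lehner involution, level `N = D.Q * D.R`:

* (W3) `isKappa_pushW`  : `IsKappa n c y → IsKappa n (wPar D c) (w_* y)`;
* (Dw) `kappaC_pushW`   : `w_* (κ_n c) = κ_n (wPar D c)`.
-/
import Mathlib
import Fermat.Agent.F3.I2.Deg.ALTheta
import Fermat.Agent.F3.I2.Deg.ALPar
import Fermat.Agent.F3.I2.Deg.ALPush
import Fermat.Agent.F3.I2.Deg.Canon

set_option autoImplicit false
set_option linter.unusedVariables false
set_option linter.style.haveILetI false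
set_option linter.unusedSectionVars false

noncomputable section

namespace Fermat.Agent.F3DegW

open UpperHalfPlane CongruenceSubgroup ModularCurve AlgebraicCurve
open Fermat.Agent.AtkinLehner (ALData)
open Fermat.Agent.F3I2 Fermat.Agent.F3EC Fermat.Agent.F3Deg Fermat.Agent.F3DegP
open scoped MatrixGroups

attribute [local instance] Fermat.Agent.F3DegP.neZero_level

/-- **`IsTheta` and `(w_ℂ)_*`.** -/
theorem isTheta_pushWC (D : ALData) {n : ℕ} {χ : ↥(Gamma0 (D.Q * D.R)) →* ℂˣ}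
    {c : Pic0 ℂ (FC (D.Q * D.R))} (h : IsTheta (D.Q * D.R) n χ c) :
    IsTheta (D.Q * D.R) n (χ.comp (conjW D rfl)) (pushWC D c) :=
  isTheta_slashW D h fun x E hE hc => by
    obtain ⟨E', h1, h2⟩ := isRootDiv_pushWC D hE
    exact ⟨E', h2, by rw [← h1, hc]⟩

/-- **(W3)** `IsKappa n c y → IsKappa n (wPar D c) (w_* y)`, level `D.Q * D.R`. -/
theorem isKappa_pushW (D : ALData) {n : ℕ} {c : HomPar (D.Q * D.R)} {y : JZero (D.Q * D.R)}
    (h : IsKappa (descBc (D.Q * D.R)) n c y) :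
    IsKappa (descBc (D.Q * D.R)) n (wPar D rfl c) (pushW D y) := by
  have h1 := isTheta_pushWC D h
  rw [IsKappa, descBc_pushW, charOf_wPar]
  exact h1

/-- **(Dw)** `w_* (κ_n c) = κ_n (wPar D c)`, level `D.Q * D.R`. -/
theorem kappaC_pushW (D : ALData) (n : ℕ) (c : HomPar (D.Q * D.R)) :
    pushW D ((kappaC (D.Q * D.R) n c : Fermat.Agent.F3.Jtors (D.Q * D.R) n) :
        JZero (D.Q * D.R)) =
      ((kappaC (D.Q * D.R) n (wPar D rfl c) : Fermat.Agent.F3.Jtors (D.Q * D.R) n) :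
        JZero (D.Q * D.R)) := by
  rw [coe_kappaC, coe_kappaC]
  rcases Nat.eq_zero_or_pos n with rfl | hn
  · rw [kappaFun_zero_level, kappaFun_zero_level, map_zero]
  · exact (kappaFun_eq_of_isKappa hn (isKappa_pushW D (isKappa_kappaFun hn c))).symm

end Fermat.Agent.F3DegW
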