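/-
S35 WP D, part Dw (helper7): the level-`M` layer (`hM : M = D.Q * D.R`) and (Db).

* `pushWAt D hM : JZero M →+ JZero M`  (`= pushW D` after `subst hM`);
* (W3) `isKappa_pushWAt`, (Dw) `kappaC_pushWAt : w_* (κ_n c) = κ_n (wPar D hM c)`;
* (Db) `pushAlpha_pushWAt_kappaC` :
    `α_* (w_* (κ^{N₀ q}_n c)) = κ^{N₀}_n (coresParD N₀ q c)`   (`D.Q = q`, `D.R = N₀`).
-/
import Mathlib
import Fermat.Agent.F3.I2.Deg.ALKappa

set_option autoImplicit false
set_option linter.unusedVariables false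
set_option linter.style.haveILetI false
set_option linter.unusedSectionVars false

noncomputable section

namespace Fermat.Agent.F3DegW

open UpperHalfPlane CongruenceSubgroup ModularCurve AlgebraicCurve
open Fermat.Agent.AtkinLehner (ALData)
open Fermat.Agent.F3I2 Fermat.Agent.F3EC Fermat.Agent.F3Deg Fermat.Agent.F3DegP
  Fermat.Agent.LDeg
open scoped MatrixGroups

attribute [local instance] Fermat.Agent.F3DegP.neZero_level

/-- **`w_*`** on `J₀(M)(ℚ̄)`, for a level `M = D.Q * D.R`. -/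
def pushWAt (D : ALData) {M : ℕ} (hM : M = D.Q * D.R) : JZero M →+ JZero M := by
  subst hM
  exact pushW D

@[simp] theorem pushWAt_rfl (D : ALData) : pushWAt D (rfl : D.Q * D.R = D.Q * D.R) = pushW D :=
  rfl

/-- **(W3)** at level `M`. -/
theorem isKappa_pushWAt (D : ALData) {M : ℕ} [NeZero M] (hM : M = D.Q * D.R) {n : ℕ}
    {c : HomPar M} {y : JZero M} (h : IsKappa (descBc M) n c y) :
    IsKappa (descBc M) n (wPar D hM c) (pushWAt D hM y) := by
  subst hM
  exact isKappa_pushW D h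

/-- **(Dw)** at level `M`: `w_* (κ_n c) = κ_n (wPar D hM c)`. -/
theorem kappaC_pushWAt (D : ALData) {M : ℕ} [NeZero M] (hM : M = D.Q * D.R) (n : ℕ)
    (c : HomPar M) :
    pushWAt D hM ((kappaC M n c : Fermat.Agent.F3.Jtors M n) : JZero M) =
      ((kappaC M n (wPar D hM c) : Fermat.Agent.F3.Jtors M n) : JZero M) := by
  subst hM
  exact kappaC_pushW D n c

/-- `w_*` is an involution on the image of `κ`. -/
theorem pushWAt_pushWAt_kappaC (D : ALData) {M : ℕ} [NeZero M] (hM : M = D.Q * D.R) (n : ℕ)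
    (c : HomPar M) :
    pushWAt D hM (pushWAt D hM ((kappaC M n c : Fermat.Agent.F3.Jtors M n) : JZero M)) =
      ((kappaC M n c : Fermat.Agent.F3.Jtors M n) : JZero M) := by
  rw [kappaC_pushWAt, kappaC_pushWAt, wPar_wPar]

/-- **(Db)** `α_* (w_* (κ^{N₀ q}_n c)) = κ^{N₀}_n (coresParD N₀ q c)`. -/
theorem pushAlpha_pushWAt_kappaC (D : ALData) {N₀ q : ℕ} [NeZero N₀] [NeZero q]
    (hq : q.Prime) (hqN : ¬ q ∣ N₀) (hQ : D.Q = q) (hR : D.R = N₀)
    (hM : N₀ * q = D.Q * D.R) (n : ℕ) (c : HomPar (N₀ * q)) :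
    pushAlpha N₀ q (pushWAt D hM
        ((kappaC (N₀ * q) n c : Fermat.Agent.F3.Jtors (N₀ * q) n) : JZero (N₀ * q))) =
      ((kappaC N₀ n (coresParD N₀ q c) : Fermat.Agent.F3.Jtors N₀ n) : JZero N₀) := by
  haveI : NeZero (N₀ * q) := ⟨Nat.mul_ne_zero (NeZero.ne N₀) (NeZero.ne q)⟩
  rw [kappaC_pushWAt D hM, kappaC_pushAlpha hq hqN, coresPar_wPar D hq hqN hQ hR hM]

end Fermat.Agent.F3DegW
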