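/-
S35 WP D (helper43): the level-`M` layer of the Atkin–Lehner pushforward.

For `hM : M = D.Q * D.R`, on helper7's `F3DegW.pushWAt D hM : JZero M →+ JZero M`
(`ALLevel.lean`) and helper36's `BadRed.wAt D hM` (`Lib/BadRed/Bridge/LevelCast.lean`):

* (B) `pushWAt_smul`      : `pushWAt D hM (σ • y) = σ • pushWAt D hM y`;
* (C) `isRootDiv_pushWAt` : `IsRootDiv n f E → ∃ E', pushWAt D hM (Pic0.mk E) = Pic0.mk E' ∧
                              IsRootDiv n (wAt D hM f) E'`.
-/
import Mathlib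
import Fermat.Agent.F3.I2.Deg.PushGal
import Fermat.Agent.F3.I2.Deg.ALLevel
import Fermat.Agent.Lib.BadRed.Bridge.LevelCast

set_option autoImplicit false

noncomputable section

namespace Fermat.Agent.F3DegW

open ModularCurve AlgebraicCurve
open Fermat.Agent.F3I2 Fermat.Agent.F3G Fermat.Agent.F3Deg Fermat.Agent.F3DegP
open Fermat.Agent.AtkinLehner (ALData)

attribute [local instance] Fermat.Agent.F3DegP.neZero_level

/-- **(B)** `w_*` at level `M` commutes with the Galois action on `J₀(M)(ℚ̄)`. -/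
theorem pushWAt_smul (D : ALData) {M : ℕ} (hM : M = D.Q * D.R)
    (σ : AlgebraicClosure ℚ ≃ₐ[ℚ] AlgebraicClosure ℚ) (y : JZero M) :
    pushWAt D hM (σ • y) = σ • pushWAt D hM y := by
  subst hM
  rw [pushWAt_rfl]
  exact Fermat.Agent.F3DegP.pushW_smul D σ y

/-- **(C)** Kummer generators: `w_* [(1/n) div f] = [(1/n) div (w f)]` at level `M`. -/
theorem isRootDiv_pushWAt (D : ALData) {M : ℕ} (hM : M = D.Q * D.R) {n : ℕ}
    {f : ↥(modularFunctionFieldBar M)}
    {E : Divisor.degZero (K := AlgebraicClosure ℚ) (F := modularFunctionFieldBar M)}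
    (hE : IsRootDiv n f E) :
    ∃ E' : Divisor.degZero (K := AlgebraicClosure ℚ) (F := modularFunctionFieldBar M),
      pushWAt D hM (Pic0.mk E) = Pic0.mk E' ∧
        IsRootDiv n (Fermat.Agent.BadRed.wAt D hM f) E' := by
  subst hM
  rw [pushWAt_rfl, Fermat.Agent.BadRed.wAt_eq_rfl]
  exact Fermat.Agent.F3DegP.isRootDiv_pushW D hE

end Fermat.Agent.F3DegW
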